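import Mathlib
import Fermat.Agent.S55.PT.Levels
import Fermat.Agent.S55.PT.LevelsNormal

/-!
# S55 / layer KL, leaf KL-A3 (`LocalPUnboundedSpec`)                       (helper824)

The `p`-part of the index `[G_{ℚ_q} : V]` of the normal local levels `V` below any given level
is unbounded.

Proof.  Let `ζ_j ∈ ℚ̄` be a primitive `p^j`-th root of unity and `E_j = ℚ_q(ι ζ_j) ⊆ ℚ̄_q`.
* `[E_j : ℚ_q]` divides `φ(p^j)` (cyclotomic extension);
* `[E_j : ℚ_q]` is unbounded: otherwise some `E_{j₀}` contains all `ζ_j`; it is a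
  finite-dimensional normed space over the locally compact field `ℚ_q`, so its unit ball is compact;
  but two distinct roots of unity of `p`-power order have distance `≥ ‖p‖ > 0` (ultrametric);
* hence `p^m ∣ [E_j : ℚ_q]` for a suitable `j`;
* the level `r⁻¹(G_{ℚ(ζ_j)})` is the fixing subgroup of `E_j`, of index `[E_j : ℚ_q]`, and the
  index of any smaller level is a multiple of it.

The statement is given in unfolded form (`localPUnbounded`); it is definitionally
`KL.LocalPUnboundedSpec` of the KL blueprint.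
-/

set_option autoImplicit false
set_option linter.style.haveILetI false
set_option linter.unusedSectionVars false

noncomputable section

namespace Fermat.Agent.S55.KL.H824

open Fermat.Agent.S55.PT ExtCitation

/-! ## 1. Roots of unity of `p`-power order in an ultrametric field are `‖p‖`-separated -/

section Norm

variable {K : Type*} [NormedField K] [IsUltrametricDist K]

lemma norm_geom_sum_le_one {x : K} (hx : ‖x‖ ≤ 1) (n : ℕ) :
    ‖∑ i ∈ Finset.range n, x ^ i‖ ≤ 1 := by
  refine IsUltrametricDist.norm_sum_le_of_forall_le_of_nonneg zero_le_one (fun i _ => ?_)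
  rw [norm_pow]
  exact pow_le_one₀ (norm_nonneg _) hx

lemma norm_one_sub_pow_le {x : K} (hx : ‖x‖ ≤ 1) (n : ℕ) : ‖1 - x ^ n‖ ≤ ‖1 - x‖ := by
  have h : 1 - x ^ n = (∑ i ∈ Finset.range n, x ^ i) * (1 - x) := by
    have := geom_sum_mul x n
    linear_combination this
  rw [h, norm_mul]
  calc ‖∑ i ∈ Finset.range n, x ^ i‖ * ‖1 - x‖ ≤ 1 * ‖1 - x‖ := by
        gcongr
        exact norm_geom_sum_le_one hx n
    _ = ‖1 - x‖ := one_mul _

omit [IsUltrametricDist K] in
lemma norm_eq_one_of_pow_eq_one' {x : K} {n : ℕ} (hn : n ≠ 0) (h : x ^ n = 1) : ‖x‖ = 1 := by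
  have h1 : ‖x‖ ^ n = 1 := by rw [← norm_pow, h, norm_one]
  exact (pow_eq_one_iff_of_nonneg (norm_nonneg _) hn).1 h1

lemma norm_prime_le_norm_one_sub {p : ℕ} (hp : p.Prime) :
    ∀ (k : ℕ) {ξ : K}, ξ ^ (p ^ k) = 1 → ξ ≠ 1 → ‖(p : K)‖ ≤ ‖1 - ξ‖ := by
  intro k
  induction k with
  | zero =>
    intro ξ h h1
    simp only [pow_zero, pow_one] at h
    exact absurd h h1
  | succ k ih =>
    intro ξ h h1
    have hξ : ‖ξ‖ ≤ 1 := le_of_eq (norm_eq_one_of_pow_eq_one' (pow_ne_zero _ hp.ne_zero) h)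
    by_cases hη : ξ ^ p = 1
    · have hsum : ∑ i ∈ Finset.range p, ξ ^ i = 0 := by
        have := geom_sum_mul ξ p
        rw [hη, sub_self] at this
        rcases mul_eq_zero.1 this with h0 | h0
        · exact h0
        · exact absurd (sub_eq_zero.1 h0) h1
      have hp' : (p : K) = ∑ i ∈ Finset.range p, (1 - ξ ^ i) := by
        rw [Finset.sum_sub_distrib, hsum, sub_zero]
        simp
      rw [hp']
      exact IsUltrametricDist.norm_sum_le_of_forall_le_of_nonneg (norm_nonneg _)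
        (fun i _ => norm_one_sub_pow_le hξ i)
    · have h' : (ξ ^ p) ^ (p ^ k) = 1 := by
        rw [← pow_mul, ← pow_succ']
        exact h
      exact (ih h' hη).trans (norm_one_sub_pow_le hξ p)

end Norm

/-! ## 2. A finite-dimensional subspace over a locally compact field cannot contain
primitive `p^j`-th roots of unity for all `j` -/

section Compact

variable {K : Type*} [NormedField K] [IsUltrametricDist K]

lemma norm_prime_le_norm_sub {p : ℕ} (hp : p.Prime) {ζ : ℕ → K}
    (hζ : ∀ j, IsPrimitiveRoot (ζ j) (p ^ j)) {a b : ℕ} (hab : a < b) :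
    ‖(p : K)‖ ≤ ‖ζ a - ζ b‖ := by
  have ha0 : ζ a ≠ 0 := (hζ a).ne_zero (pow_ne_zero _ hp.ne_zero)
  have hna : ‖ζ a‖ = 1 :=
    norm_eq_one_of_pow_eq_one' (pow_ne_zero a hp.ne_zero) (hζ a).pow_eq_one
  have hapow : ζ a ^ (p ^ b) = 1 := by
    obtain ⟨c, rfl⟩ := Nat.exists_eq_add_of_le hab.le
    rw [pow_add, pow_mul, (hζ a).pow_eq_one, one_pow]
  have hξpow : (ζ b * (ζ a)⁻¹) ^ (p ^ b) = 1 := by
    rw [mul_pow, inv_pow, (hζ b).pow_eq_one, hapow, inv_one, one_mul]
  have hξne : ζ b * (ζ a)⁻¹ ≠ 1 := by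
    intro h
    have hba : ζ b = ζ a := by
      have := congrArg (· * ζ a) h
      simpa [mul_assoc, inv_mul_cancel₀ ha0] using this
    have hpow : p ^ b = p ^ a := IsPrimitiveRoot.unique (hζ b) (hba ▸ hζ a)
    have := Nat.pow_right_injective hp.two_le hpow
    omega
  have hfac : ζ a - ζ b = ζ a * (1 - ζ b * (ζ a)⁻¹) := by
    field_simp
  rw [hfac, norm_mul, hna, one_mul]
  exact norm_prime_le_norm_one_sub hp b hξpow hξne

variable {k : Type*} [NontriviallyNormedField k] [LocallyCompactSpace k] [NormedAlgebra k K]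

theorem not_forall_primitiveRoot_mem {p : ℕ} (hp : p.Prime) (hpK : (p : K) ≠ 0)
    (E : Submodule k K) [FiniteDimensional k E] (ζ : ℕ → K)
    (hζ : ∀ j, IsPrimitiveRoot (ζ j) (p ^ j)) : ¬ ∀ j, ζ j ∈ E := by
  intro hmem
  have : ProperSpace E := FiniteDimensional.proper k E
  let x : ℕ → E := fun j => ⟨ζ j, hmem j⟩
  have hb : ∀ j, x j ∈ Metric.closedBall (0 : E) 1 := by
    intro j
    rw [mem_closedBall_zero_iff]
    exact le_of_eq (norm_eq_one_of_pow_eq_one' (pow_ne_zero j hp.ne_zero) (hζ j).pow_eq_one)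
  obtain ⟨a, -, φ, hφ, hlim⟩ := tendsto_subseq_of_bounded Metric.isBounded_closedBall hb
  have hc := hlim.cauchySeq
  rw [Metric.cauchySeq_iff] at hc
  obtain ⟨N, hN⟩ := hc ‖(p : K)‖ (norm_pos_iff.2 hpK)
  have h1 := hN N le_rfl (N + 1) (Nat.le_succ N)
  have h2 : ‖(p : K)‖ ≤ ‖ζ (φ N) - ζ (φ (N + 1))‖ :=
    norm_prime_le_norm_sub hp hζ (hφ (Nat.lt_succ_self N))
  have h3 : dist ((x ∘ φ) N) ((x ∘ φ) (N + 1)) = ‖ζ (φ N) - ζ (φ (N + 1))‖ := by
    rw [dist_eq_norm]
    rfl
  rw [h3] at h1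
  exact absurd h1 (not_lt.2 h2)

end Compact

/-! ## 3. Degrees of the `p`-power cyclotomic extensions -/

section Field

variable (k : Type*) {K : Type*} [Field k] [Field K] [Algebra k K] [Algebra.IsIntegral k K]

lemma finrank_adjoin_dvd_totient {n : ℕ} [NeZero n] {ζ : K} (hζ : IsPrimitiveRoot ζ n) :
    Module.finrank k (IntermediateField.adjoin k {ζ}) ∣ n.totient := by
  have hcyc := hζ.intermediateField_adjoin_isCyclotomicExtension k
  have hgal : IsGalois k (IntermediateField.adjoin k {ζ}) :=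
    IsCyclotomicExtension.isGalois {n} k _
  have hfd : FiniteDimensional k (IntermediateField.adjoin k {ζ}) :=
    IsCyclotomicExtension.finiteDimensional {n} k _
  let μ : IntermediateField.adjoin k {ζ} := ⟨ζ, IntermediateField.mem_adjoin_simple_self k ζ⟩
  have hμ : IsPrimitiveRoot μ n := IsPrimitiveRoot.coe_submonoidClass_iff.1 hζ
  rw [← IsGalois.card_aut_eq_finrank, ← ZMod.card_units_eq_totient n, ← Nat.card_eq_fintype_card]
  exact Subgroup.card_dvd_of_injective _ (hμ.autToPow_injective k)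

lemma adjoin_primitiveRoot_mono {p : ℕ} (hp : p.Prime) {ζ : ℕ → K}
    (hζ : ∀ j, IsPrimitiveRoot (ζ j) (p ^ j)) {i j : ℕ} (hij : i ≤ j) :
    IntermediateField.adjoin k {ζ i} ≤ IntermediateField.adjoin k {ζ j} := by
  rw [IntermediateField.adjoin_simple_le_iff]
  haveI : NeZero (p ^ j) := ⟨pow_ne_zero _ hp.ne_zero⟩
  have hpow : ζ i ^ (p ^ j) = 1 := by
    obtain ⟨c, rfl⟩ := Nat.exists_eq_add_of_le hij
    rw [pow_add, pow_mul, (hζ i).pow_eq_one, one_pow]
  obtain ⟨e, -, he⟩ := (hζ j).eq_pow_of_pow_eq_one hpow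
  rw [← he]
  exact pow_mem (IntermediateField.mem_adjoin_simple_self k _) e

lemma pow_dvd_of_dvd_of_lt {p : ℕ} (hp : p.Prime) {d j m : ℕ} (hd : d ∣ p ^ j * (p - 1))
    (hlt : p ^ m * (p - 1) < d) : p ^ m ∣ d := by
  obtain ⟨d1, d2, h1, h2, rfl⟩ := (Nat.dvd_mul).1 hd
  obtain ⟨a, ha, rfl⟩ := (Nat.dvd_prime_pow hp).1 h1
  have hp1 : 0 < p - 1 := Nat.sub_pos_of_lt hp.one_lt
  have hd2 : d2 ≤ p - 1 := Nat.le_of_dvd hp1 h2
  have h3 : p ^ m * (p - 1) < p ^ a * (p - 1) := lt_of_lt_of_le hlt (Nat.mul_le_mul_left _ hd2)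
  have h4 : p ^ m < p ^ a := lt_of_mul_lt_mul_right h3 (Nat.zero_le _)
  have h5 : m < a := (Nat.pow_lt_pow_iff_right hp.one_lt).1 h4
  exact Dvd.dvd.mul_right (pow_dvd_pow p h5.le) d2

lemma totient_prime_pow_dvd {p : ℕ} (hp : p.Prime) (j : ℕ) :
    (p ^ j).totient ∣ p ^ j * (p - 1) := by
  rcases Nat.eq_zero_or_pos j with rfl | hj
  · simp
  · rw [Nat.totient_prime_pow hp hj]
    exact Nat.mul_dvd_mul_right (pow_dvd_pow p (Nat.sub_le j 1)) _

end Field

section Unbounded

variable (k : Type*) {K : Type*} [NontriviallyNormedField k] [LocallyCompactSpace k]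
  [NormedField K] [NormedAlgebra k K] [IsUltrametricDist K] [Algebra.IsIntegral k K]

theorem exists_lt_finrank_adjoin {p : ℕ} (hp : p.Prime) (hpK : (p : K) ≠ 0) (ζ : ℕ → K)
    (hζ : ∀ j, IsPrimitiveRoot (ζ j) (p ^ j)) (B : ℕ) :
    ∃ j, B < Module.finrank k (IntermediateField.adjoin k {ζ j}) := by
  by_contra hcon
  push Not at hcon
  have hfd : ∀ j, FiniteDimensional k (IntermediateField.adjoin k {ζ j}) := fun j =>
    IntermediateField.adjoin.finiteDimensional (Algebra.IsIntegral.isIntegral (ζ j))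
  -- an index of maximal degree
  have hmax : ∃ j0, ∀ j, Module.finrank k (IntermediateField.adjoin k {ζ j}) ≤
      Module.finrank k (IntermediateField.adjoin k {ζ j0}) := by
    by_contra hno
    push Not at hno
    have hall : ∀ n : ℕ, ∃ j, n ≤ Module.finrank k (IntermediateField.adjoin k {ζ j}) := by
      intro n
      induction n with
      | zero => exact ⟨0, Nat.zero_le _⟩
      | succ n ih =>
        obtain ⟨j, hj⟩ := ih
        obtain ⟨j', hj'⟩ := hno j
        exact ⟨j', by omega⟩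
    obtain ⟨j, hj⟩ := hall (B + 1)
    have := hcon j
    omega
  obtain ⟨j0, hj0⟩ := hmax
  have hmem : ∀ j, ζ j ∈ IntermediateField.adjoin k {ζ j0} := by
    intro j
    have hle : IntermediateField.adjoin k {ζ j0} ≤ IntermediateField.adjoin k {ζ (max j j0)} :=
      adjoin_primitiveRoot_mono k hp hζ (le_max_right j j0)
    haveI := hfd (max j j0)
    have heq : IntermediateField.adjoin k {ζ j0} = IntermediateField.adjoin k {ζ (max j j0)} :=
      IntermediateField.eq_of_le_of_finrank_le hle (hj0 _)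
    rw [heq]
    exact adjoin_primitiveRoot_mono k hp hζ (le_max_left j j0)
      (IntermediateField.mem_adjoin_simple_self k _)
  haveI : FiniteDimensional k
      ↥((IntermediateField.adjoin k {ζ j0}).toSubalgebra.toSubmodule) := hfd j0
  exact not_forall_primitiveRoot_mem hp hpK
    ((IntermediateField.adjoin k {ζ j0}).toSubalgebra.toSubmodule) ζ hζ hmem

theorem exists_pow_dvd_finrank_adjoin {p : ℕ} (hp : p.Prime) (hpK : (p : K) ≠ 0) (ζ : ℕ → K)
    (hζ : ∀ j, IsPrimitiveRoot (ζ j) (p ^ j)) (m : ℕ) :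
    ∃ j, p ^ m ∣ Module.finrank k (IntermediateField.adjoin k {ζ j}) := by
  obtain ⟨j, hj⟩ := exists_lt_finrank_adjoin k hp hpK ζ hζ (p ^ m * (p - 1))
  refine ⟨j, ?_⟩
  haveI : NeZero (p ^ j) := ⟨pow_ne_zero _ hp.ne_zero⟩
  exact pow_dvd_of_dvd_of_lt hp
    ((finrank_adjoin_dvd_totient k (hζ j)).trans (totient_prime_pow_dvd hp j)) hj

end Unbounded

/-! ## 4. The local levels attached to the cyclotomic fields -/

section Galois

lemma mem_fixingSubgroup_adjoin_simple_iff {F E : Type*} [Field F] [Field E] [Algebra F E]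
    (σ : E ≃ₐ[F] E) (y : E) :
    σ ∈ (IntermediateField.adjoin F {y}).fixingSubgroup ↔ σ y = y := by
  rw [IntermediateField.mem_fixingSubgroup_iff]
  constructor
  · intro h
    exact h y (IntermediateField.mem_adjoin_simple_self F y)
  · intro h x hx
    induction hx using IntermediateField.adjoin_induction with
    | mem x hx =>
      rw [Set.mem_singleton_iff] at hx
      rw [hx]
      exact h
    | algebraMap x => exact σ.commutes x
    | add x y _ _ hx hy => rw [map_add, hx, hy]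
    | inv x _ hx => rw [map_inv₀, hx]
    | mul x y _ _ hx hy => rw [map_mul, hx, hy]

variable (q : ℕ) [Fact q.Prime]

lemma comap_fixingSubgroup_adjoin_eq (z : AlgebraicClosure ℚ) :
    (IntermediateField.adjoin ℚ {z}).fixingSubgroup.comap (localGaloisToGlobal q) =
      (IntermediateField.adjoin ℚ_[q] {padicEmbedding q z}).fixingSubgroup := by
  ext τ
  rw [Subgroup.mem_comap, mem_fixingSubgroup_adjoin_simple_iff,
    mem_fixingSubgroup_adjoin_simple_iff, ← padicEmbedding_localGaloisToGlobal]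
  exact ((padicEmbedding q).injective.eq_iff).symm

lemma index_comap_fixingSubgroup_adjoin (z : AlgebraicClosure ℚ) :
    ((IntermediateField.adjoin ℚ {z}).fixingSubgroup.comap (localGaloisToGlobal q)).index =
      Module.finrank ℚ_[q] (IntermediateField.adjoin ℚ_[q] {padicEmbedding q z}) := by
  rw [comap_fixingSubgroup_adjoin_eq]
  exact (IntermediateField.finrank_eq_fixingSubgroup_index _ _).symm

end Galois

/-! ## 5. KL-A3 -/

/-- **KL-A3** (`LocalPUnboundedSpec`, unfolded).  The `p`-part of `[G_{ℚ_q} : V]`, `V` a normal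
local level below `V₀`, is unbounded. -/
theorem localPUnbounded (p : ℕ) [Fact p.Prime] (q : Nat.Primes) (V₀ : Subgroup (Gl q))
    (hV₀ : V₀ ∈ (localLevels q).levels) (m : ℕ) :
    ∃ V : Subgroup (Gl q), V ∈ (localLevels q).levels ∧ V.Normal ∧ V ≤ V₀ ∧
      p ^ m ∣ V.index := by
  letI : Fact (q : ℕ).Prime := ⟨q.2⟩
  have hp : p.Prime := Fact.out
  have hex : ∀ j : ℕ, ∃ z : AlgebraicClosure ℚ, IsPrimitiveRoot z (p ^ j) := fun j => by
    haveI : NeZero ((p : ℕ) : AlgebraicClosure ℚ) := ⟨Nat.cast_ne_zero.2 hp.ne_zero⟩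
    exact HasEnoughRootsOfUnity.exists_primitiveRoot _ _
  choose z hz using hex
  have hζ : ∀ j, IsPrimitiveRoot (padicEmbedding (q : ℕ) (z j)) (p ^ j) := fun j =>
    (hz j).map_of_injective (padicEmbedding (q : ℕ)).injective
  have hpK : ((p : ℕ) : PadicAlgCl (q : ℕ)) ≠ 0 := Nat.cast_ne_zero.2 hp.ne_zero
  obtain ⟨j, hj⟩ := exists_pow_dvd_finrank_adjoin ℚ_[(q : ℕ)] hp hpK
    (fun j => padicEmbedding (q : ℕ) (z j)) hζ m
  have hfd : FiniteDimensional ℚ (IntermediateField.adjoin ℚ {z j}) :=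
    IntermediateField.adjoin.finiteDimensional
      ((AlgebraicClosure.isAlgebraic ℚ).isAlgebraic (z j)).isIntegral
  have hH : (IntermediateField.adjoin ℚ {z j}).fixingSubgroup.comap (rl q) ∈
      (localLevels q).levels := ⟨IntermediateField.adjoin ℚ {z j}, hfd, rfl⟩
  have hidx : ((IntermediateField.adjoin ℚ {z j}).fixingSubgroup.comap (rl q)).index =
      Module.finrank ℚ_[(q : ℕ)]
        (IntermediateField.adjoin ℚ_[(q : ℕ)] {padicEmbedding (q : ℕ) (z j)}) :=
    index_comap_fixingSubgroup_adjoin (q : ℕ) (z j)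
  obtain ⟨U, hU, hUle⟩ := (localLevels q).directed V₀ hV₀ _ hH
  obtain ⟨V, hV, hVU, hVn⟩ := pullbackLevels_normal_cofinal724 (rl q) U hU
  refine ⟨V, hV, hVn, hVU.trans (hUle.trans inf_le_left), ?_⟩
  have hdvd : ((IntermediateField.adjoin ℚ {z j}).fixingSubgroup.comap (rl q)).index ∣ V.index :=
    Subgroup.index_dvd_of_le (hVU.trans (hUle.trans inf_le_right))
  rw [hidx] at hdvd
  exact hj.trans hdvd

end Fermat.Agent.S55.KL.H824

end
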